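/-
T1B / TORIC50, brick T-GAL (helper65), file 1: **functoriality of the hub for arbitrary `W`-algebra
homomorphisms**.

`RedIface75.PicX.map c0 A A'` is base change along an *instance* `[Algebra A A']`; for automorphisms
`σ : O ≃ₐ[W] O` (Galois actions) the instance form clashes with `Algebra.id`.  Here:

* `mapAlg c0 f : PicX c0 A →* PicX c0 A'` for `f : A →ₐ[W] A'` (`= PicX.map` for the algebra structure
  `f.toAlgebra`), `mapAlg_eq_map`, `mapAlg_id`, `mapAlg_comp`;
* `mapAlg_cechClass` : the action on Čech classes is `u ↦ (f ⊗ id) u`;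
* `JhatMap_id`, `JhatMap_comp`, `JhatMap_congr` : functoriality of `CechData.JhatMap` at the `W`-level;
* `mapAlg_jhatToPic` : `Ĵ(R, m) → Pic X_R` is natural for arbitrary `W`-algebra homomorphisms;
* `mapAlg_mem_J1` : `J̃¹` is stable under local `W`-algebra homomorphisms of DVRs.
-/
import Mathlib
import Fermat.Agent.T1.CechFormal70.PicMap
import Fermat.Agent.T1.Red11.MapComp
import Fermat.Agent.T1.Red20.CoordMap

set_option autoImplicit false
set_option linter.unusedSectionVars false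
set_option linter.style.haveILetI false

open TensorProduct

namespace Fermat.Agent.T1B.ToricGal65

open Fermat.Agent.Jac Fermat.Agent.Jac.JGroup85Pic Fermat.Agent.Jac.BaseChange75
open Fermat.Agent.T1.RedIface75 Fermat.Agent.T1.Red11 Fermat.Agent.T1.CechFormal70
open scoped Fermat.Agent.Jac.BaseChange75

universe u

variable {W B0 B1 B01 : Type u} [CommRing W] [CommRing B0] [CommRing B1] [CommRing B01]
  [Algebra W B0] [Algebra W B1] [Algebra W B01]

/-! ### Functoriality of `Ĵ` at the `W`-level -/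

section JhatPure

variable {g : ℕ} (D : CechData W B0 B1 B01 g)
  {R R' R'' : Type u} [CommRing R] [CommRing R'] [CommRing R'']
  [Algebra W R] [Algebra W R'] [Algebra W R'']

/-- `f ⊗ id` on the overlap ring. -/
noncomputable abbrev tmap (B : Type u) [CommRing B] [Algebra W B] (f : R →ₐ[W] R') :
    R ⊗[W] B →ₐ[W] R' ⊗[W] B :=
  Algebra.TensorProduct.map f (AlgHom.id W B)

theorem JhatMap_cls (f : R →ₐ[W] R') {m : Ideal R} {m' : Ideal R'}
    (hm : m ≤ m'.comap (f : R →+* R')) (u : unitsOne (eI m (R ⊗[W] B01))) :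
    D.JhatMap f hm ((D.pkg R).cls m u) = (D.pkg R').cls m' ((D.pkgHom f).u01 hm u) := rfl

theorem coe_u01 (f : R →ₐ[W] R') {m : Ideal R} {m' : Ideal R'}
    (hm : m ≤ m'.comap (f : R →+* R')) (u : unitsOne (eI m (R ⊗[W] B01))) :
    ((((D.pkgHom f).u01 hm u : unitsOne (eI m' (R' ⊗[W] B01))) : (R' ⊗[W] B01)ˣ) : R' ⊗[W] B01) =
      tmap B01 f ((u : (R ⊗[W] B01)ˣ) : R ⊗[W] B01) := rfl

theorem JhatMap_congr {f f' : R →ₐ[W] R'} (h : f = f') {m : Ideal R} {m' : Ideal R'}
    (hm : m ≤ m'.comap (f : R →+* R')) (hm' : m ≤ m'.comap (f' : R →+* R'))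
    (z : (D.pkg R).Jhat m) : D.JhatMap f hm z = D.JhatMap f' hm' z := by
  subst h
  rfl

theorem JhatMap_id {m : Ideal R} (hm : m ≤ m.comap ((AlgHom.id W R : R →ₐ[W] R) : R →+* R))
    (z : (D.pkg R).Jhat m) : D.JhatMap (AlgHom.id W R) hm z = z := by
  obtain ⟨u, rfl⟩ := (D.pkg R).cls_surjective m z
  rw [JhatMap_cls]
  congr 1
  apply Subtype.ext
  apply Units.ext
  rw [coe_u01]
  show Algebra.TensorProduct.map (AlgHom.id W R) (AlgHom.id W B01) _ = _
  rw [Algebra.TensorProduct.map_id]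
  rfl

theorem tmap_comp (B : Type u) [CommRing B] [Algebra W B] (f : R →ₐ[W] R') (f' : R' →ₐ[W] R'')
    (x : R ⊗[W] B) : tmap B (f'.comp f) x = tmap B f' (tmap B f x) := by
  induction x using TensorProduct.induction_on with
  | zero => simp
  | tmul r b => simp [tmap]
  | add a b ha hb => rw [map_add, map_add, map_add, ha, hb]

theorem JhatMap_comp (f : R →ₐ[W] R') (f' : R' →ₐ[W] R'') {m : Ideal R} {m' : Ideal R'}
    {m'' : Ideal R''} (hm : m ≤ m'.comap (f : R →+* R')) (hm' : m' ≤ m''.comap (f' : R' →+* R''))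
    (hmm : m ≤ m''.comap ((f'.comp f : R →ₐ[W] R'') : R →+* R'')) (z : (D.pkg R).Jhat m) :
    D.JhatMap (f'.comp f) hmm z = D.JhatMap f' hm' (D.JhatMap f hm z) := by
  obtain ⟨u, rfl⟩ := (D.pkg R).cls_surjective m z
  rw [JhatMap_cls, JhatMap_cls, JhatMap_cls]
  congr 1
  apply Subtype.ext
  apply Units.ext
  rw [coe_u01, coe_u01, coe_u01]
  exact tmap_comp B01 f f' _

end JhatPure

/-! ## The hub -/

variable [Algebra B0 B01] [Algebra B1 B01] [IsScalarTower W B0 B01] [IsScalarTower W B1 B01]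
  (c0 : TwoChart W B0 B1 B01)

/-! ### Base change along a `W`-algebra homomorphism -/

section MapAlg

variable {A A' A'' : Type u} [CommRing A] [CommRing A'] [CommRing A'']
  [Algebra W A] [Algebra W A'] [Algebra W A'']

/-- The scalar tower `W → A → A'` for the algebra structure of a `W`-algebra homomorphism. -/
theorem tower_of_algHom (f : A →ₐ[W] A') :
    letI : Algebra A A' := f.toRingHom.toAlgebra
    IsScalarTower W A A' :=
  letI : Algebra A A' := f.toRingHom.toAlgebra
  IsScalarTower.of_algebraMap_eq fun w => (f.commutes w).symm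

/-- **Base change `Pic X_A → Pic X_{A'}` along a `W`-algebra homomorphism** `f : A →ₐ[W] A'`. -/
noncomputable def mapAlg (f : A →ₐ[W] A') : PicX c0 A →* PicX c0 A' :=
  letI : Algebra A A' := f.toRingHom.toAlgebra
  haveI : IsScalarTower W A A' := tower_of_algHom f
  PicX.map c0 A A'

/-- `mapAlg` is `PicX.map` when the algebra structure is given by an instance. -/
theorem mapAlg_eq_map [i : Algebra A A'] [t : IsScalarTower W A A'] (f : A →ₐ[W] A')
    (hf : ∀ a, f a = algebraMap A A' a) : mapAlg c0 f = PicX.map c0 A A' := by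
  have hi : f.toRingHom.toAlgebra = i := Algebra.algebra_ext _ _ fun a => hf a
  subst hi
  rfl

theorem mapAlg_toAlgHom [Algebra A A'] [IsScalarTower W A A'] :
    mapAlg c0 (IsScalarTower.toAlgHom W A A') = PicX.map c0 A A' :=
  mapAlg_eq_map c0 _ fun _ => rfl

theorem mapAlg_id_apply (x : PicX c0 A) : mapAlg c0 (AlgHom.id W A) x = x := by
  rw [mapAlg_eq_map c0 (AlgHom.id W A) fun _ => rfl]
  exact PicX.map_self c0 A x

theorem mapAlg_id : mapAlg c0 (AlgHom.id W A) = MonoidHom.id (PicX c0 A) :=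
  MonoidHom.ext (mapAlg_id_apply c0)

theorem mapAlg_comp_apply (f : A →ₐ[W] A') (g : A' →ₐ[W] A'') (x : PicX c0 A) :
    mapAlg c0 (g.comp f) x = mapAlg c0 g (mapAlg c0 f x) := by
  letI i1 : Algebra A A' := f.toRingHom.toAlgebra
  letI i2 : Algebra A' A'' := g.toRingHom.toAlgebra
  letI i3 : Algebra A A'' := (g.comp f).toRingHom.toAlgebra
  haveI t1 : IsScalarTower W A A' := tower_of_algHom f
  haveI t2 : IsScalarTower W A' A'' := tower_of_algHom g
  haveI t3 : IsScalarTower W A A'' := tower_of_algHom (g.comp f)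
  haveI t4 : IsScalarTower A A' A'' := IsScalarTower.of_algebraMap_eq fun _ => rfl
  exact (PicX.map_comp c0 A A' A'' x).symm

theorem mapAlg_comp (f : A →ₐ[W] A') (g : A' →ₐ[W] A'') :
    mapAlg c0 (g.comp f) = (mapAlg c0 g).comp (mapAlg c0 f) :=
  MonoidHom.ext (mapAlg_comp_apply c0 f g)

theorem mapAlg_congr {f f' : A →ₐ[W] A'} (h : f = f') : mapAlg c0 f = mapAlg c0 f' := by
  rw [h]

/-- **The action of `mapAlg` on Čech classes.** -/
theorem mapAlg_cechClass (f : A →ₐ[W] A') (u : (A ⊗[W] B01)ˣ) :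
    mapAlg c0 f (cechClass (c0.baseChange A) u) =
      cechClass (c0.baseChange A')
        (Units.map ((tmap B01 f : A ⊗[W] B01 →+* A' ⊗[W] B01) : A ⊗[W] B01 →* A' ⊗[W] B01) u) := by
  letI i1 : Algebra A A' := f.toRingHom.toAlgebra
  haveI t1 : IsScalarTower W A A' := tower_of_algHom f
  have h := PicX.map_cechClass c0 A A' u
  have e : Units.map (algebraMap (A ⊗[W] B01) (A' ⊗[W] B01) : A ⊗[W] B01 →* A' ⊗[W] B01) u =
      Units.map ((tmap B01 f : A ⊗[W] B01 →+* A' ⊗[W] B01) : A ⊗[W] B01 →* A' ⊗[W] B01) u := by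
    apply Units.ext
    show algebraMap (A ⊗[W] B01) (A' ⊗[W] B01) (u : A ⊗[W] B01) = tmap B01 f (u : A ⊗[W] B01)
    rw [algebraMap_left_eq_map]
    have e2 : IsScalarTower.toAlgHom W A A' = f := AlgHom.ext fun _ => rfl
    rw [e2]
  rw [← e]
  exact h

end MapAlg

/-! ### Naturality of `Ĵ → Pic` -/

section Jhat

variable {g : ℕ} (D : CechData W B0 B1 B01 g)
  {R R' R'' : Type u} [CommRing R] [CommRing R'] [CommRing R'']
  [Algebra W R] [Algebra W R'] [Algebra W R'']

variable (hD0 : ∀ x, D.ρ0 x = algebraMap B0 B01 x) (hD1 : ∀ x, D.ρ1 x = algebraMap B1 B01 x)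

/-- **Naturality of `Ĵ(R, m) → Pic X_R`** for arbitrary `W`-algebra homomorphisms. -/
theorem mapAlg_jhatToPic (f : R →ₐ[W] R') {m : Ideal R} {m' : Ideal R'}
    (hm : m ≤ m'.comap (f : R →+* R')) (z : (D.pkg R).Jhat m) :
    mapAlg c0 f (jhatToPic c0 D hD0 hD1 R m z) =
      jhatToPic c0 D hD0 hD1 R' m' (D.JhatMap f hm z) := by
  obtain ⟨u, rfl⟩ := (D.pkg R).cls_surjective m z
  rw [jhatToPic_cls, mapAlg_cechClass, JhatMap_cls, jhatToPic_cls]
  congr 1

end Jhat

/-! ### Stability of `J̃¹` -/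

section J1

variable {O O' : Type u} [CommRing O] [IsDomain O] [IsDiscreteValuationRing O] [Algebra W O]
  [CommRing O'] [IsDomain O'] [IsDiscreteValuationRing O'] [Algebra W O']

/-- `J̃¹` is stable under base change along a local `W`-algebra homomorphism. -/
theorem mapAlg_mem_J1 (f : O →ₐ[W] O') (hf : IsLocalHom (f : O →+* O')) {y : PicX c0 O}
    (hy : y ∈ J1 c0 O) : mapAlg c0 f y ∈ J1 c0 O' := by
  letI i1 : Algebra O O' := f.toRingHom.toAlgebra
  haveI t1 : IsScalarTower W O O' := tower_of_algHom f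
  haveI : IsLocalHom (algebraMap O O') := hf
  exact Fermat.Agent.T1.Red20.CoordMap.map_mem_J1 hy

/-- An algebra automorphism is a local homomorphism. -/
theorem isLocalHom_algEquiv (σ : O ≃ₐ[W] O) : IsLocalHom ((σ : O →ₐ[W] O) : O →+* O) :=
  ⟨fun a ha => by
    have h := ha.map (σ.symm : O →ₐ[W] O)
    have e : (σ.symm : O →ₐ[W] O) (((σ : O →ₐ[W] O) : O →+* O) a) = a := σ.symm_apply_apply a
    rwa [e] at h⟩

end J1

end Fermat.Agent.T1B.ToricGal65
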