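/-
T1B / TORIC50, brick T-GAL (helper65), file 2: **the maps induced on the truncations `O/𝔪ⁿ`** by a
local `W`-algebra homomorphism of DVRs, as `W`-algebra homomorphisms.

* `truncAlgHom f hf n : Trunc O n →ₐ[W] Trunc O' n` (underlying ring map = `Red20.CoordMap.truncFun`),
  `truncAlgHom_mk`, `truncAlgHom_id`, `truncAlgHom_comp`, `truncAlgHom_mem_mT`;
* `transAlgHom h : Trunc O n →ₐ[W] Trunc O m` for `m ≤ n` (underlying ring map = `Red20.CoordFun.truncMap`);
* `quotAlgHom n : O →ₐ[W] Trunc O n`;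
* the commutation relations between them (`algHom_ext_mk`: two algebra maps out of `Trunc O n`
  agreeing on the classes `mk x` are equal).
-/
import Mathlib
import Fermat.Agent.T1.Red20.CoordMap

set_option autoImplicit false
set_option linter.unusedSectionVars false
set_option linter.style.haveILetI false

namespace Fermat.Agent.T1B.ToricGal65

open Fermat.Agent.T1.RedIface75 Fermat.Agent.T1.Red20.CoordFun Fermat.Agent.T1.Red20.CoordMap

universe u

variable {W : Type u} [CommRing W]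
  {O O' O'' : Type u} [CommRing O] [IsDomain O] [IsDiscreteValuationRing O] [Algebra W O]
  [CommRing O'] [IsDomain O'] [IsDiscreteValuationRing O'] [Algebra W O']
  [CommRing O''] [IsDomain O''] [IsDiscreteValuationRing O''] [Algebra W O'']

/-- Two `W`-algebra maps out of `O/𝔪ⁿ` which agree on the classes of elements of `O` are equal. -/
theorem algHom_ext_mk {n : ℕ} {S : Type u} [CommRing S] [Algebra W S]
    {φ ψ : Trunc O n →ₐ[W] S}
    (h : ∀ x : O, φ (Ideal.Quotient.mk _ x) = ψ (Ideal.Quotient.mk _ x)) : φ = ψ := by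
  refine AlgHom.ext fun y => ?_
  obtain ⟨x, rfl⟩ := Ideal.Quotient.mk_surjective y
  exact h x

/-- The quotient map `O → O/𝔪ⁿ` as a `W`-algebra homomorphism. -/
def quotAlgHom (n : ℕ) : O →ₐ[W] Trunc O n :=
  Ideal.Quotient.mkₐ W ((IsLocalRing.maximalIdeal O) ^ n)

@[simp] theorem quotAlgHom_apply (n : ℕ) (x : O) :
    quotAlgHom (W := W) n x = Ideal.Quotient.mk ((IsLocalRing.maximalIdeal O) ^ n) x := rfl

/-- The map `O/𝔪ⁿ → O'/𝔪'ⁿ` induced by a local `W`-algebra homomorphism. -/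
def truncAlgHom (f : O →ₐ[W] O') (hf : IsLocalHom (f : O →+* O')) (n : ℕ) :
    Trunc O n →ₐ[W] Trunc O' n :=
  Ideal.quotientMapₐ ((IsLocalRing.maximalIdeal O') ^ n) f
    (haveI := hf; maximalIdeal_pow_le_comap (f : O →+* O') n)

@[simp] theorem truncAlgHom_mk (f : O →ₐ[W] O') (hf : IsLocalHom (f : O →+* O')) (n : ℕ) (x : O) :
    truncAlgHom f hf n (Ideal.Quotient.mk _ x) = Ideal.Quotient.mk _ (f x) := rfl

theorem truncAlgHom_toRingHom (f : O →ₐ[W] O') (hf : IsLocalHom (f : O →+* O')) (n : ℕ)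
    (y : Trunc O n) :
    truncAlgHom f hf n y = (haveI := hf; truncFun (f : O →+* O') n y) := by
  obtain ⟨x, rfl⟩ := Ideal.Quotient.mk_surjective y
  rfl

theorem truncAlgHom_id (h : IsLocalHom ((AlgHom.id W O : O →ₐ[W] O) : O →+* O)) (n : ℕ) :
    truncAlgHom (AlgHom.id W O) h n = AlgHom.id W (Trunc O n) :=
  algHom_ext_mk fun _ => rfl

theorem truncAlgHom_comp (f : O →ₐ[W] O') (hf : IsLocalHom (f : O →+* O'))
    (f' : O' →ₐ[W] O'') (hf' : IsLocalHom (f' : O' →+* O''))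
    (h : IsLocalHom ((f'.comp f : O →ₐ[W] O'') : O →+* O'')) (n : ℕ) :
    truncAlgHom (f'.comp f) h n = (truncAlgHom f' hf' n).comp (truncAlgHom f hf n) :=
  algHom_ext_mk fun _ => rfl

theorem truncAlgHom_congr {f f' : O →ₐ[W] O'} (e : f = f') (hf : IsLocalHom (f : O →+* O'))
    (hf' : IsLocalHom (f' : O →+* O')) (n : ℕ) : truncAlgHom f hf n = truncAlgHom f' hf' n := by
  subst e
  rfl

theorem truncAlgHom_mem_mT (f : O →ₐ[W] O') (hf : IsLocalHom (f : O →+* O')) {n : ℕ}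
    {x : Trunc O n} (hx : x ∈ mT O n) : truncAlgHom f hf n x ∈ mT O' n := by
  rw [truncAlgHom_toRingHom]
  haveI := hf
  exact truncFun_mem_mT (f : O →+* O') hx

theorem mT_le_comap_truncAlgHom (f : O →ₐ[W] O') (hf : IsLocalHom (f : O →+* O')) (n : ℕ) :
    mT O n ≤ (mT O' n).comap ((truncAlgHom f hf n : Trunc O n →ₐ[W] Trunc O' n) :
      Trunc O n →+* Trunc O' n) :=
  fun _ hx => Ideal.mem_comap.2 (truncAlgHom_mem_mT f hf hx)

/-- The transition map `O/𝔪ⁿ → O/𝔪ᵐ`, `m ≤ n`, as a `W`-algebra homomorphism. -/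
def transAlgHom {m n : ℕ} (h : m ≤ n) : Trunc O n →ₐ[W] Trunc O m :=
  Ideal.Quotient.factorₐ W (Ideal.pow_le_pow_right (I := IsLocalRing.maximalIdeal O) h)

@[simp] theorem transAlgHom_mk {m n : ℕ} (h : m ≤ n) (x : O) :
    transAlgHom (W := W) h (Ideal.Quotient.mk ((IsLocalRing.maximalIdeal O) ^ n) x) =
      Ideal.Quotient.mk _ x := rfl

theorem transAlgHom_mem_mT {m n : ℕ} (h : m ≤ n) {x : Trunc O n} (hx : x ∈ mT O n) :
    transAlgHom (W := W) h x ∈ mT O m := by
  obtain ⟨y, hy, rfl⟩ := (Ideal.mem_map_iff_of_surjective _ Ideal.Quotient.mk_surjective).1 hx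
  rw [transAlgHom_mk]
  exact Ideal.mem_map_of_mem _ hy

theorem mT_le_comap_transAlgHom {m n : ℕ} (h : m ≤ n) :
    mT O n ≤ (mT O m).comap ((transAlgHom (W := W) h : Trunc O n →ₐ[W] Trunc O m) :
      Trunc O n →+* Trunc O m) :=
  fun _ hx => Ideal.mem_comap.2 (transAlgHom_mem_mT (W := W) h hx)

/-- `truncAlgHom` commutes with the transition maps. -/
theorem transAlgHom_comp_truncAlgHom (f : O →ₐ[W] O') (hf : IsLocalHom (f : O →+* O'))
    {m n : ℕ} (h : m ≤ n) :
    (transAlgHom (W := W) h).comp (truncAlgHom f hf n) =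
      (truncAlgHom f hf m).comp (transAlgHom (W := W) h) :=
  algHom_ext_mk fun _ => rfl

/-- `truncAlgHom` commutes with every `W`-algebra map `π : O/𝔪ⁿ → O/𝔪ᵐ` which is the identity on
classes. -/
theorem comp_truncAlgHom_of_mk (f : O →ₐ[W] O') (hf : IsLocalHom (f : O →+* O')) {m n : ℕ}
    (π : Trunc O n →ₐ[W] Trunc O m) (π' : Trunc O' n →ₐ[W] Trunc O' m)
    (hπ : ∀ x : O, π (Ideal.Quotient.mk _ x) = Ideal.Quotient.mk _ x)
    (hπ' : ∀ x : O', π' (Ideal.Quotient.mk _ x) = Ideal.Quotient.mk _ x) :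
    π'.comp (truncAlgHom f hf n) = (truncAlgHom f hf m).comp π :=
  algHom_ext_mk fun x => by
    rw [AlgHom.comp_apply, AlgHom.comp_apply, truncAlgHom_mk, hπ', hπ, truncAlgHom_mk]

/-- `truncAlgHom` commutes with the quotient maps. -/
theorem truncAlgHom_comp_quotAlgHom (f : O →ₐ[W] O') (hf : IsLocalHom (f : O →+* O')) (n : ℕ) :
    (truncAlgHom f hf n).comp (quotAlgHom (W := W) n) = (quotAlgHom (W := W) n).comp f :=
  AlgHom.ext fun _ => rfl

theorem maximalIdeal_le_comap_quotAlgHom (n : ℕ) :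
    IsLocalRing.maximalIdeal O ≤ (mT O n).comap ((quotAlgHom (W := W) n : O →ₐ[W] Trunc O n) :
      O →+* Trunc O n) :=
  fun _ hx => Ideal.mem_comap.2 (Ideal.mem_map_of_mem _ hx)

theorem maximalIdeal_le_comap_algHom (f : O →ₐ[W] O') (hf : IsLocalHom (f : O →+* O')) :
    IsLocalRing.maximalIdeal O ≤ (IsLocalRing.maximalIdeal O').comap (f : O →+* O') := by
  haveI := hf
  exact Ideal.map_le_iff_le_comap.1 (map_maximalIdeal_le (f : O →+* O'))

end Fermat.Agent.T1B.ToricGal65
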