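/-
T1B / TORIC50, brick T-GAL (helper65), file 3: **the Galois actions on the tower**.

`ρ : G →* (O ≃ₐ[W] O)` a group acting on the DVR `O` by `W`-algebra automorphisms (in the application
`G` = inertia subgroup of `Aut(O/W)`), `c0` a two-chart datum over `W` with Čech data `D`
(smooth or nodal).  The actions are *reducible definitions*, not global instances: pass them to the
instance fields of `Toric50.Package`.

* `picAct ρ  : MulDistribMulAction G (PicX c0 O)`, `j1Act ρ : MulDistribMulAction G (J1 c0 O)`;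
* `jhatAct D ρ n : MulDistribMulAction G ((D.pkg (Trunc O n)).Jhat (mT O n))`;
* `onesAct ρ n : MulDistribMulAction G (unitsOne (mT O n))`,
  `onesActO ρ : MulDistribMulAction G (unitsOne (maximalIdeal O))`
  (the actions on `Fin r → _` are Mathlib's `Pi.mulDistribMulAction`);
* equivariance of the transition maps (`transJhat_smul`, `transOnes_smul`), of the reductions
  `q n : 1 + 𝔪 → 1 + 𝔪/𝔪ⁿ` (`quotOnes_smul`), of `Ĵ → Pic` (`jhatToPic_smul`), of the truncation
  `Pic X_O → Pic X_{O/𝔪ⁿ}` (`map_trunc_smul`), hence of the coordinates `u n` in characterisation form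
  (`coord_char_smul`);
* `natural_smul` : a family of maps natural for all `W`-algebra homomorphisms is `G`-equivariant.
-/
import Mathlib
import Fermat.Agent.T1B.ToricGal65.Alg
import Fermat.Agent.T1B.ToricGal65.Trunc

set_option autoImplicit false
set_option linter.unusedSectionVars false
set_option linter.style.haveILetI false

open TensorProduct

namespace Fermat.Agent.T1B.ToricGal65

open Fermat.Agent.Jac Fermat.Agent.Jac.JGroup85Pic Fermat.Agent.Jac.BaseChange75
open Fermat.Agent.T1.RedIface75 Fermat.Agent.T1.Red11 Fermat.Agent.T1.CechFormal70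
open Fermat.Agent.T1.Red20.CoordFun Fermat.Agent.T1.Red20.CoordMap
open scoped Fermat.Agent.Jac.BaseChange75

universe u

variable {W B0 B1 B01 : Type u} [CommRing W] [CommRing B0] [CommRing B1] [CommRing B01]
  [Algebra W B0] [Algebra W B1] [Algebra W B01]

section Pure

variable {O : Type u} [CommRing O] [IsDomain O] [IsDiscreteValuationRing O] [Algebra W O]
  {G : Type u} [Group G] (ρ : G →* (O ≃ₐ[W] O))

/-! ### The algebra homomorphisms of the action -/

/-- The `W`-algebra endomorphism of `O` attached to `s : G`. -/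
abbrev rhoHom (s : G) : O →ₐ[W] O := (ρ s : O →ₐ[W] O)

theorem rhoHom_apply (s : G) (x : O) : rhoHom ρ s x = ρ s x := rfl

theorem rhoHom_one : rhoHom ρ 1 = AlgHom.id W O :=
  AlgHom.ext fun x => by rw [rhoHom_apply, map_one]; rfl

theorem rhoHom_mul (s t : G) : rhoHom ρ (s * t) = (rhoHom ρ s).comp (rhoHom ρ t) :=
  AlgHom.ext fun x => by rw [rhoHom_apply, map_mul]; rfl

theorem rhoHom_local (s : G) : IsLocalHom ((rhoHom ρ s : O →ₐ[W] O) : O →+* O) :=
  isLocalHom_algEquiv (ρ s)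

/-- The `W`-algebra endomorphism of `O/𝔪ⁿ` attached to `s : G`. -/
noncomputable abbrev truncRho (n : ℕ) (s : G) : Trunc O n →ₐ[W] Trunc O n :=
  truncAlgHom (rhoHom ρ s) (rhoHom_local ρ s) n

theorem truncRho_mk (n : ℕ) (s : G) (x : O) :
    truncRho ρ n s (Ideal.Quotient.mk _ x) = Ideal.Quotient.mk _ (ρ s x) := rfl

theorem truncRho_one (n : ℕ) : truncRho ρ n 1 = AlgHom.id W (Trunc O n) :=
  algHom_ext_mk fun x => by rw [truncRho_mk, map_one]; rfl

theorem truncRho_mul (n : ℕ) (s t : G) :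
    truncRho ρ n (s * t) = (truncRho ρ n s).comp (truncRho ρ n t) :=
  algHom_ext_mk fun x => by rw [truncRho_mk, map_mul]; rfl

theorem mT_le_comap_truncRho (n : ℕ) (s : G) :
    mT O n ≤ (mT O n).comap ((truncRho ρ n s : Trunc O n →ₐ[W] Trunc O n) :
      Trunc O n →+* Trunc O n) :=
  mT_le_comap_truncAlgHom _ _ n

theorem maximalIdeal_le_comap_rhoHom (s : G) :
    IsLocalRing.maximalIdeal O ≤
      (IsLocalRing.maximalIdeal O).comap ((rhoHom ρ s : O →ₐ[W] O) : O →+* O) :=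
  maximalIdeal_le_comap_algHom _ (rhoHom_local ρ s)

/-! ### The action on the Čech formal groups `Ĵ(O/𝔪ⁿ, 𝔪/𝔪ⁿ)` -/

section Jhat

variable {g : ℕ} (D : CechData W B0 B1 B01 g)

/-- The action of `s` on `Ĵ(O/𝔪ⁿ, 𝔪/𝔪ⁿ)`. -/
noncomputable def jhatMapG (n : ℕ) (s : G) :
    (D.pkg (Trunc O n)).Jhat (mT O n) →* (D.pkg (Trunc O n)).Jhat (mT O n) :=
  D.JhatMap (truncRho ρ n s) (mT_le_comap_truncRho ρ n s)

theorem jhatMapG_one (n : ℕ) (z : (D.pkg (Trunc O n)).Jhat (mT O n)) :
    jhatMapG ρ D n 1 z = z := by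
  unfold jhatMapG
  have h : mT O n ≤ (mT O n).comap ((AlgHom.id W (Trunc O n) : Trunc O n →ₐ[W] Trunc O n) :
      Trunc O n →+* Trunc O n) := fun _ hx => hx
  rw [JhatMap_congr D (truncRho_one ρ n) _ h, JhatMap_id]

theorem jhatMapG_mul (n : ℕ) (s t : G) (z : (D.pkg (Trunc O n)).Jhat (mT O n)) :
    jhatMapG ρ D n (s * t) z = jhatMapG ρ D n s (jhatMapG ρ D n t z) := by
  unfold jhatMapG
  have h : mT O n ≤ (mT O n).comap
      (((truncRho ρ n s).comp (truncRho ρ n t) : Trunc O n →ₐ[W] Trunc O n) :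
        Trunc O n →+* Trunc O n) :=
    fun _ hx => mT_le_comap_truncRho ρ n s (mT_le_comap_truncRho ρ n t hx)
  rw [JhatMap_congr D (truncRho_mul ρ n s t) _ h,
    JhatMap_comp D _ _ (mT_le_comap_truncRho ρ n t) (mT_le_comap_truncRho ρ n s)]

/-- **The action of `G` on `Ĵ(O/𝔪ⁿ, 𝔪/𝔪ⁿ)`.** -/
@[reducible] noncomputable def jhatAct (n : ℕ) :
    MulDistribMulAction G ((D.pkg (Trunc O n)).Jhat (mT O n)) where
  smul s z := jhatMapG ρ D n s z
  one_smul z := jhatMapG_one ρ D n z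
  mul_smul s t z := jhatMapG_mul ρ D n s t z
  smul_mul s x y := map_mul (jhatMapG ρ D n s) x y
  smul_one s := map_one (jhatMapG ρ D n s)

theorem jhatAct_smul (n : ℕ) (s : G) (z : (D.pkg (Trunc O n)).Jhat (mT O n)) :
    letI := jhatAct ρ D n
    s • z = D.JhatMap (truncRho ρ n s) (mT_le_comap_truncRho ρ n s) z := rfl

/-- The action on classes: `s • [u] = [(σ ⊗ 1) u]`. -/
theorem jhatMapG_cls (n : ℕ) (s : G) (u : unitsOne (eI (mT O n) (Trunc O n ⊗[W] B01))) :
    jhatMapG ρ D n s ((D.pkg (Trunc O n)).cls _ u) =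
      (D.pkg (Trunc O n)).cls _ ((D.pkgHom (truncRho ρ n s)).u01 (mT_le_comap_truncRho ρ n s) u) :=
  rfl

/-- **Equivariance of the transition maps** of the tower `Ĵ(O/𝔪ⁿ⁺¹) → Ĵ(O/𝔪ⁿ)` (for any `W`-algebra
map `π` which is the identity on classes of elements of `O`). -/
theorem transJhat_smul {m n : ℕ} (π : Trunc O n →ₐ[W] Trunc O m)
    (hπ : ∀ x : O, π (Ideal.Quotient.mk _ x) = Ideal.Quotient.mk _ x)
    (hm : mT O n ≤ (mT O m).comap (π : Trunc O n →+* Trunc O m)) (s : G)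
    (z : (D.pkg (Trunc O n)).Jhat (mT O n)) :
    D.JhatMap π hm (jhatMapG ρ D n s z) = jhatMapG ρ D m s (D.JhatMap π hm z) := by
  unfold jhatMapG
  have e : π.comp (truncRho ρ n s) = (truncRho ρ m s).comp π :=
    comp_truncAlgHom_of_mk _ _ π π hπ hπ
  have h1 : mT O n ≤ (mT O m).comap ((π.comp (truncRho ρ n s) : Trunc O n →ₐ[W] Trunc O m) :
      Trunc O n →+* Trunc O m) := fun _ hx => hm (mT_le_comap_truncRho ρ n s hx)
  have h2 : mT O n ≤ (mT O m).comap (((truncRho ρ m s).comp π : Trunc O n →ₐ[W] Trunc O m) :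
      Trunc O n →+* Trunc O m) := fun _ hx => mT_le_comap_truncRho ρ m s (hm hx)
  rw [← JhatMap_comp D _ _ (mT_le_comap_truncRho ρ n s) hm h1,
    ← JhatMap_comp D _ _ hm (mT_le_comap_truncRho ρ m s) h2]
  exact JhatMap_congr D e h1 h2 z

/-- The standard transition maps are equivariant. -/
theorem transJhat_smul' {m n : ℕ} (h : m ≤ n) (s : G) (z : (D.pkg (Trunc O n)).Jhat (mT O n)) :
    D.JhatMap (transAlgHom (W := W) h) (mT_le_comap_transAlgHom (W := W) h) (jhatMapG ρ D n s z) =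
      jhatMapG ρ D m s (D.JhatMap (transAlgHom (W := W) h) (mT_le_comap_transAlgHom (W := W) h) z) :=
  transJhat_smul ρ D _ (fun _ => rfl) _ s z

end Jhat

/-! ### The actions on the one-units -/

/-- The action of `s` on `1 + 𝔪/𝔪ⁿ`. -/
noncomputable def onesMapG (n : ℕ) (s : G) : unitsOne (mT O n) →* unitsOne (mT O n) :=
  unitsOneMap ((truncRho ρ n s : Trunc O n →ₐ[W] Trunc O n) : Trunc O n →+* Trunc O n)
    (mT_le_comap_truncRho ρ n s)

theorem coe_onesMapG (n : ℕ) (s : G) (w : unitsOne (mT O n)) :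
    (((onesMapG ρ n s w : unitsOne (mT O n)) : (Trunc O n)ˣ) : Trunc O n) =
      truncRho ρ n s ((w : (Trunc O n)ˣ) : Trunc O n) := rfl

theorem onesMapG_one (n : ℕ) (w : unitsOne (mT O n)) : onesMapG ρ n 1 w = w :=
  Subtype.ext (Units.ext (by rw [coe_onesMapG, truncRho_one]; rfl))

theorem onesMapG_mul (n : ℕ) (s t : G) (w : unitsOne (mT O n)) :
    onesMapG ρ n (s * t) w = onesMapG ρ n s (onesMapG ρ n t w) :=
  Subtype.ext (Units.ext (by
    rw [coe_onesMapG, truncRho_mul, coe_onesMapG, coe_onesMapG]; rfl))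

/-- **The action of `G` on `1 + 𝔪/𝔪ⁿ`.** -/
@[reducible] noncomputable def onesAct (n : ℕ) : MulDistribMulAction G (unitsOne (mT O n)) where
  smul s w := onesMapG ρ n s w
  one_smul w := onesMapG_one ρ n w
  mul_smul s t w := onesMapG_mul ρ n s t w
  smul_mul s x y := map_mul (onesMapG ρ n s) x y
  smul_one s := map_one (onesMapG ρ n s)

/-- The action of `s` on `1 + 𝔪`. -/
noncomputable def onesMapO (s : G) :
    unitsOne (IsLocalRing.maximalIdeal O) →* unitsOne (IsLocalRing.maximalIdeal O) :=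
  unitsOneMap ((rhoHom ρ s : O →ₐ[W] O) : O →+* O) (maximalIdeal_le_comap_rhoHom ρ s)

theorem coe_onesMapO (s : G) (w : unitsOne (IsLocalRing.maximalIdeal O)) :
    (((onesMapO ρ s w : unitsOne (IsLocalRing.maximalIdeal O)) : Oˣ) : O) = ρ s ((w : Oˣ) : O) :=
  rfl

theorem onesMapO_one (w : unitsOne (IsLocalRing.maximalIdeal O)) : onesMapO ρ 1 w = w :=
  Subtype.ext (Units.ext (by rw [coe_onesMapO, map_one]; rfl))

theorem onesMapO_mul (s t : G) (w : unitsOne (IsLocalRing.maximalIdeal O)) :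
    onesMapO ρ (s * t) w = onesMapO ρ s (onesMapO ρ t w) :=
  Subtype.ext (Units.ext (by
    rw [coe_onesMapO, map_mul, coe_onesMapO, coe_onesMapO]; rfl))

/-- **The action of `G` on `1 + 𝔪`.** -/
@[reducible] noncomputable def onesActO :
    MulDistribMulAction G (unitsOne (IsLocalRing.maximalIdeal O)) where
  smul s w := onesMapO ρ s w
  one_smul w := onesMapO_one ρ w
  mul_smul s t w := onesMapO_mul ρ s t w
  smul_mul s x y := map_mul (onesMapO ρ s) x y
  smul_one s := map_one (onesMapO ρ s)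

/-- **Equivariance of the transition maps** `1 + 𝔪/𝔪ⁿ → 1 + 𝔪/𝔪ᵐ`. -/
theorem transOnes_smul {m n : ℕ} (π : Trunc O n →ₐ[W] Trunc O m)
    (hπ : ∀ x : O, π (Ideal.Quotient.mk _ x) = Ideal.Quotient.mk _ x)
    (hm : mT O n ≤ (mT O m).comap (π : Trunc O n →+* Trunc O m)) (s : G)
    (w : unitsOne (mT O n)) :
    unitsOneMap (π : Trunc O n →+* Trunc O m) hm (onesMapG ρ n s w) =
      onesMapG ρ m s (unitsOneMap (π : Trunc O n →+* Trunc O m) hm w) := by
  apply Subtype.ext
  apply Units.ext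
  rw [coe_unitsOneMap, coe_onesMapG, coe_onesMapG, coe_unitsOneMap]
  have e : π.comp (truncRho ρ n s) = (truncRho ρ m s).comp π :=
    comp_truncAlgHom_of_mk _ _ π π hπ hπ
  exact congrFun (congrArg DFunLike.coe e) _

/-- **Equivariance of the reductions** `q n : 1 + 𝔪 → 1 + 𝔪/𝔪ⁿ`. -/
theorem quotOnes_smul (n : ℕ) (s : G) (w : unitsOne (IsLocalRing.maximalIdeal O)) :
    unitsOneMap ((quotAlgHom (W := W) n : O →ₐ[W] Trunc O n) : O →+* Trunc O n)
        (maximalIdeal_le_comap_quotAlgHom (W := W) n) (onesMapO ρ s w) =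
      onesMapG ρ n s (unitsOneMap ((quotAlgHom (W := W) n : O →ₐ[W] Trunc O n) : O →+* Trunc O n)
        (maximalIdeal_le_comap_quotAlgHom (W := W) n) w) :=
  Subtype.ext (Units.ext rfl)

/-- The same for an arbitrary ring map `q : O → O/𝔪ⁿ` equal to the quotient map. -/
theorem quotOnes_smul' (n : ℕ) (q : O →+* Trunc O n) (hq : ∀ x, q x = Ideal.Quotient.mk _ x)
    (hm : IsLocalRing.maximalIdeal O ≤ (mT O n).comap q) (s : G)
    (w : unitsOne (IsLocalRing.maximalIdeal O)) :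
    unitsOneMap q hm (onesMapO ρ s w) = onesMapG ρ n s (unitsOneMap q hm w) := by
  apply Subtype.ext
  apply Units.ext
  rw [coe_unitsOneMap, coe_onesMapO, coe_onesMapG, coe_unitsOneMap, hq, hq]
  rfl

/-! ### Natural maps are equivariant -/

section Natural

variable {g : ℕ} (D : CechData W B0 B1 B01 g) {r : ℕ}

/-- **Template: a natural homomorphism is equivariant.**  If `ι_{R,m} : (1 + m)^r → Ĵ(R, m)` is
natural with respect to the `W`-algebra endomorphism `truncRho ρ n s` of `O/𝔪ⁿ`, then `ι` is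
`s`-equivariant for the Galois actions. -/
theorem natural_smul (n : ℕ) (s : G)
    (ι : (Fin r → unitsOne (mT O n)) → (D.pkg (Trunc O n)).Jhat (mT O n))
    (hnat : ∀ w : Fin r → unitsOne (mT O n),
      D.JhatMap (truncRho ρ n s) (mT_le_comap_truncRho ρ n s) (ι w) =
        ι fun i => unitsOneMap ((truncRho ρ n s : Trunc O n →ₐ[W] Trunc O n) :
          Trunc O n →+* Trunc O n) (mT_le_comap_truncRho ρ n s) (w i))
    (w : Fin r → unitsOne (mT O n)) :
    letI := jhatAct ρ D n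
    letI := onesAct ρ n
    ι (s • w) = s • ι w :=
  (hnat w).symm

end Natural

end Pure

/-! ## The hub: `Pic X_O`, `J̃¹(O)`, `Ĵ → Pic` -/

section Hub

variable [Algebra B0 B01] [Algebra B1 B01] [IsScalarTower W B0 B01] [IsScalarTower W B1 B01]
  (c0 : TwoChart W B0 B1 B01)
  {O : Type u} [CommRing O] [IsDomain O] [IsDiscreteValuationRing O] [Algebra W O]
  {G : Type u} [Group G] (ρ : G →* (O ≃ₐ[W] O))

/-! ### The action on `Pic X_O` and on `J̃¹(O)` -/

/-- The action of `s` on `Pic X_O`. -/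
noncomputable def picMapG (s : G) : PicX c0 O →* PicX c0 O := mapAlg c0 (rhoHom ρ s)

theorem picMapG_one (x : PicX c0 O) : picMapG c0 ρ 1 x = x := by
  unfold picMapG
  rw [mapAlg_congr c0 (rhoHom_one ρ), mapAlg_id_apply]

theorem picMapG_mul (s t : G) (x : PicX c0 O) :
    picMapG c0 ρ (s * t) x = picMapG c0 ρ s (picMapG c0 ρ t x) := by
  unfold picMapG
  rw [mapAlg_congr c0 (rhoHom_mul ρ s t), mapAlg_comp_apply]

/-- **The action of `G` on `Pic X_O`.** -/
@[reducible] noncomputable def picAct : MulDistribMulAction G (PicX c0 O) where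
  smul s x := picMapG c0 ρ s x
  one_smul x := picMapG_one c0 ρ x
  mul_smul s t x := picMapG_mul c0 ρ s t x
  smul_mul s x y := map_mul (picMapG c0 ρ s) x y
  smul_one s := map_one (picMapG c0 ρ s)

theorem picMapG_mem_J1 (s : G) {y : PicX c0 O} (hy : y ∈ J1 c0 O) :
    picMapG c0 ρ s y ∈ J1 c0 O :=
  mapAlg_mem_J1 c0 _ (rhoHom_local ρ s) hy

/-- The action of `s` on `J̃¹(O)`. -/
noncomputable def j1MapG (s : G) : J1 c0 O →* J1 c0 O :=
  ((picMapG c0 ρ s).comp (J1 c0 O).subtype).codRestrict _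
    fun y => picMapG_mem_J1 c0 ρ s y.2

@[simp] theorem coe_j1MapG (s : G) (y : J1 c0 O) :
    ((j1MapG c0 ρ s y : J1 c0 O) : PicX c0 O) = picMapG c0 ρ s (y : PicX c0 O) := rfl

/-- **The action of `G` on `J̃¹(O)`.** -/
@[reducible] noncomputable def j1Act : MulDistribMulAction G (J1 c0 O) where
  smul s y := j1MapG c0 ρ s y
  one_smul y := Subtype.ext (picMapG_one c0 ρ y)
  mul_smul s t y := Subtype.ext (picMapG_mul c0 ρ s t y)
  smul_mul s x y := map_mul (j1MapG c0 ρ s) x y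
  smul_one s := map_one (j1MapG c0 ρ s)

theorem coe_j1Act_smul (s : G) (y : J1 c0 O) :
    letI := j1Act c0 ρ
    ((s • y : J1 c0 O) : PicX c0 O) = picMapG c0 ρ s (y : PicX c0 O) := rfl

section JhatPic

variable {g : ℕ} (D : CechData W B0 B1 B01 g)

variable (hD0 : ∀ x, D.ρ0 x = algebraMap B0 B01 x) (hD1 : ∀ x, D.ρ1 x = algebraMap B1 B01 x)

/-- **Equivariance of `Ĵ(O/𝔪ⁿ) → Pic X_{O/𝔪ⁿ}`.** -/
theorem jhatToPic_smul (n : ℕ) (s : G) (z : (D.pkg (Trunc O n)).Jhat (mT O n)) :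
    jhatToPic c0 D hD0 hD1 (Trunc O n) (mT O n) (jhatMapG ρ D n s z) =
      mapAlg c0 (truncRho ρ n s) (jhatToPic c0 D hD0 hD1 (Trunc O n) (mT O n) z) :=
  (mapAlg_jhatToPic c0 D hD0 hD1 _ _ z).symm

end JhatPic

/-! ### Truncation `Pic X_O → Pic X_{O/𝔪ⁿ}` is equivariant -/

theorem map_trunc_eq_mapAlg (n : ℕ) :
    PicX.map c0 O (Trunc O n) = mapAlg c0 (quotAlgHom (W := W) n) :=
  (mapAlg_eq_map c0 _ fun _ => rfl).symm

/-- **Equivariance of the truncation maps.** -/
theorem map_trunc_smul (n : ℕ) (s : G) (y : PicX c0 O) :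
    PicX.map c0 O (Trunc O n) (picMapG c0 ρ s y) =
      mapAlg c0 (truncRho ρ n s) (PicX.map c0 O (Trunc O n) y) := by
  rw [map_trunc_eq_mapAlg]
  unfold picMapG
  rw [← mapAlg_comp_apply, ← mapAlg_comp_apply]
  exact congrFun (congrArg DFunLike.coe
    (mapAlg_congr c0 (truncAlgHom_comp_quotAlgHom (rhoHom ρ s) (rhoHom_local ρ s) n).symm)) y

/-- **Equivariance of the coordinates `u n`, characterisation form**: if `z ∈ Ĵ(O/𝔪ⁿ)` is the
coordinate of `y ∈ Pic X_O` (i.e. `jhatToPic z` is the truncation of `y`), then `s • z` is the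
coordinate of `s • y`. -/
theorem coord_char_smul {g : ℕ} (D : CechData W B0 B1 B01 g)
    (hD0 : ∀ x, D.ρ0 x = algebraMap B0 B01 x) (hD1 : ∀ x, D.ρ1 x = algebraMap B1 B01 x)
    (n : ℕ) (s : G) {y : PicX c0 O} {z : (D.pkg (Trunc O n)).Jhat (mT O n)}
    (h : jhatToPic c0 D hD0 hD1 (Trunc O n) (mT O n) z = PicX.map c0 O (Trunc O n) y) :
    jhatToPic c0 D hD0 hD1 (Trunc O n) (mT O n) (jhatMapG ρ D n s z) =
      PicX.map c0 O (Trunc O n) (picMapG c0 ρ s y) := by
  rw [jhatToPic_smul, map_trunc_smul, h]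

end Hub

end Fermat.Agent.T1B.ToricGal65
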