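/-
T1B / TORIC50, brick T-GAL (helper65), file 4: **the character on the `p`-torsion of the formal torus**
(`Package.χ_spec`) and small equivariance lemmas.

* `onesMapO_eq_pow` : if `G` acts on the `p`-th roots of unity of `O` through `χ`, then
  `s • w = w ^ χ s` for every `w ∈ 1 + 𝔪` with `w ^ p = 1`;
* `chi_spec` : the same on `(1 + 𝔪)^r` (Mathlib's Pi action), verbatim `Toric50.Package.χ_spec`;
* `pi_smul_apply`, `quotPi_smul`, `transPi_smul` : the maps `q n`, `pT n` on `(1 + 𝔪)^r`, `(1 + 𝔪/𝔪ⁿ)^r` are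
  equivariant;
* `ker_smul_mem` : the kernel of an equivariant homomorphism is stable (`Package.βA_smul` from
  equivariance of `βA`).
-/
import Mathlib
import Fermat.Agent.T1B.ToricGal65.Action

set_option autoImplicit false
set_option linter.unusedSectionVars false
set_option linter.style.haveILetI false

namespace Fermat.Agent.T1B.ToricGal65

open Fermat.Agent.T1.RedIface75 Fermat.Agent.T1.CechFormal70
open Fermat.Agent.T1.Red20.CoordFun Fermat.Agent.T1.Red20.CoordMap

universe u

variable {W : Type u} [CommRing W]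
  {O : Type u} [CommRing O] [IsDomain O] [IsDiscreteValuationRing O] [Algebra W O]
  {G : Type u} [Group G] (ρ : G →* (O ≃ₐ[W] O))

/-! ### The character on the `p`-torsion of `1 + 𝔪` -/

/-- If `G` acts on the `p`-th roots of unity of `O` through the exponent `χ`, then it acts through
`χ` on the `p`-torsion of `1 + 𝔪`. -/
theorem onesMapO_eq_pow {p : ℕ} (χ : G → ℕ)
    (hχ : ∀ (s : G) (ζ : O), ζ ^ p = 1 → ρ s ζ = ζ ^ χ s) (s : G)
    (w : unitsOne (IsLocalRing.maximalIdeal O)) (hw : w ^ p = 1) :
    onesMapO ρ s w = w ^ χ s := by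
  apply Subtype.ext
  apply Units.ext
  rw [coe_onesMapO]
  have h1 : (((w : unitsOne (IsLocalRing.maximalIdeal O)) : Oˣ) : O) ^ p = 1 := by
    have h2 := congrArg (fun v : unitsOne (IsLocalRing.maximalIdeal O) => ((v : Oˣ) : O)) hw
    simpa using h2
  rw [hχ s _ h1]
  simp

/-- **`Toric50.Package.χ_spec`**: `G` acts on `μ_p(O)^r ⊆ (1 + 𝔪)^r` through `χ`. -/
theorem chi_spec {p : ℕ} (χ : G → ℕ)
    (hχ : ∀ (s : G) (ζ : O), ζ ^ p = 1 → ρ s ζ = ζ ^ χ s) {r : ℕ} (s : G)
    (w : Fin r → unitsOne (IsLocalRing.maximalIdeal O)) (hw : w ^ p = 1) :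
    letI := onesActO ρ
    s • w = w ^ χ s := by
  letI := onesActO ρ
  funext i
  show onesMapO ρ s (w i) = (w i) ^ χ s
  exact onesMapO_eq_pow ρ χ hχ s (w i) (by
    have := congrFun hw i
    simpa using this)

/-! ### Componentwise maps on `(1 + 𝔪)^r` -/

/-- The reduction `q n : (1 + 𝔪)^r →* (1 + 𝔪/𝔪ⁿ)^r`. -/
noncomputable def quotPi (r n : ℕ) :
    (Fin r → unitsOne (IsLocalRing.maximalIdeal O)) →* (Fin r → unitsOne (mT O n)) where
  toFun w i := unitsOneMap ((quotAlgHom (W := W) n : O →ₐ[W] Trunc O n) : O →+* Trunc O n)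
    (maximalIdeal_le_comap_quotAlgHom (W := W) n) (w i)
  map_one' := by funext i; simp
  map_mul' a b := by funext i; simp

theorem quotPi_apply (r n : ℕ) (w : Fin r → unitsOne (IsLocalRing.maximalIdeal O)) (i : Fin r) :
    quotPi (W := W) r n w i =
      unitsOneMap ((quotAlgHom (W := W) n : O →ₐ[W] Trunc O n) : O →+* Trunc O n)
        (maximalIdeal_le_comap_quotAlgHom (W := W) n) (w i) := rfl

/-- **`q_smul`**: the reductions `q n` are equivariant. -/
theorem quotPi_smul (r n : ℕ) (s : G) (w : Fin r → unitsOne (IsLocalRing.maximalIdeal O)) :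
    letI := onesActO ρ
    letI := onesAct ρ n
    quotPi (W := W) r n (s • w) = s • quotPi (W := W) r n w := by
  letI := onesActO ρ
  letI := onesAct ρ n
  funext i
  exact quotOnes_smul ρ n s (w i)

/-- The transition map `pT : (1 + 𝔪/𝔪ⁿ)^r →* (1 + 𝔪/𝔪ᵐ)^r`, `m ≤ n`. -/
noncomputable def transPi (r : ℕ) {m n : ℕ} (h : m ≤ n) :
    (Fin r → unitsOne (mT O n)) →* (Fin r → unitsOne (mT O m)) where
  toFun w i := unitsOneMap ((transAlgHom (W := W) h : Trunc O n →ₐ[W] Trunc O m) :
    Trunc O n →+* Trunc O m) (mT_le_comap_transAlgHom (W := W) h) (w i)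
  map_one' := by funext i; simp
  map_mul' a b := by funext i; simp

/-- **Equivariance of the transition maps `pT`.** -/
theorem transPi_smul (r : ℕ) {m n : ℕ} (h : m ≤ n) (s : G) (w : Fin r → unitsOne (mT O n)) :
    letI := onesAct ρ n
    letI := onesAct ρ m
    transPi (W := W) r h (s • w) = s • transPi (W := W) r h w := by
  letI := onesAct ρ n
  letI := onesAct ρ m
  funext i
  exact transOnes_smul ρ (transAlgHom (W := W) h) (fun _ => rfl) (mT_le_comap_transAlgHom (W := W) h) s (w i)

theorem transPi_quotPi (r : ℕ) {m n : ℕ} (h : m ≤ n)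
    (w : Fin r → unitsOne (IsLocalRing.maximalIdeal O)) :
    transPi (W := W) r h (quotPi (W := W) r n w) = quotPi (W := W) r m w := by
  funext i
  exact Subtype.ext (Units.ext rfl)

/-! ### Kernels of equivariant homomorphisms -/

/-- The kernel of an equivariant homomorphism is stable under the action (this gives
`Package.βA_smul` from the equivariance of `βA`). -/
theorem ker_smul_mem {A AB : Type*} [CommGroup A] [CommGroup AB] [MulDistribMulAction G A]
    [MulDistribMulAction G AB] (β : A →* AB) (hβ : ∀ (s : G) (y : A), β (s • y) = s • β y)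
    (s : G) (y : A) (hy : β y = 1) : β (s • y) = 1 := by
  rw [hβ, hy, smul_one]

end Fermat.Agent.T1B.ToricGal65
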