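/-
T1B / TORIC50, brick T-GAL (helper65), file 5: **the Galois actions in the vocabulary of T-INST**
(`T1B/Toric11/TowerJ.lean`, helper11), for `𝔪 = maximalIdeal O`: verbatim the equivariance fields of
`Toric50.Package`.

`ρ : G →* (O ≃ₐ[W] O)`.  Actions (reducible definitions, to be passed to the instance fields of `Package`):
`actJn ρ D n` on `Jn D 𝔪 n`, `actTn ρ r n` on `Tn r 𝔪 n`, `actTinf ρ r` on `Tinf r 𝔪`
(and `j1Act c0 ρ` on `J1 c0 O` from `Action.lean`).

* `pJ_smul`, `pT_smul`, `qT_smul` (= `Package.q_smul`);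
* `βn_smul`, `ιn_smul` (= `Package.ι_smul`) for the tower maps of natural homomorphisms
  (`Toric11.JhatNat`, `Toric11.TorNat`);
* `chi_spec_Tinf` (= `Package.χ_spec`).
-/
import Mathlib
import Fermat.Agent.T1B.Toric11.TowerJ
import Fermat.Agent.T1B.ToricGal65.Chi

set_option autoImplicit false
set_option linter.unusedSectionVars false
set_option linter.style.haveILetI false

namespace Fermat.Agent.T1B.ToricGal65

open Fermat.Agent.T1.RedIface75 Fermat.Agent.T1.CechFormal70
open Fermat.Agent.T1.Red20.CoordFun Fermat.Agent.T1.Red20.CoordMap Fermat.Agent.T1B.Toric11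

universe u

variable {W B0 B1 B01 B0' B1' B01' : Type u} [CommRing W]
  [CommRing B0] [CommRing B1] [CommRing B01] [Algebra W B0] [Algebra W B1] [Algebra W B01]
  [CommRing B0'] [CommRing B1'] [CommRing B01'] [Algebra W B0'] [Algebra W B1'] [Algebra W B01']
  {g g' : ℕ}
  {O : Type u} [CommRing O] [IsDomain O] [IsDiscreteValuationRing O] [Algebra W O]
  {G : Type u} [Group G] (ρ : G →* (O ≃ₐ[W] O))

/-- The action of `G` on `Jn D 𝔪 n = Ĵ(O/𝔪ⁿ, 𝔪/𝔪ⁿ)`. -/
@[reducible] noncomputable def actJn (D : CechData W B0 B1 B01 g) (n : ℕ) :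
    MulDistribMulAction G (Jn D (IsLocalRing.maximalIdeal O) n) :=
  jhatAct ρ D n

/-- The action of `G` on `Tn r 𝔪 n = (1 + 𝔪/𝔪ⁿ)^r`. -/
@[reducible] noncomputable def actTn (r n : ℕ) :
    MulDistribMulAction G (Tn r (IsLocalRing.maximalIdeal O) n) :=
  letI := onesAct ρ n
  Pi.mulDistribMulAction _

/-- The action of `G` on `Tinf r 𝔪 = (1 + 𝔪)^r`. -/
@[reducible] noncomputable def actTinf (r : ℕ) :
    MulDistribMulAction G (Tinf r (IsLocalRing.maximalIdeal O)) :=
  letI := onesActO ρ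
  Pi.mulDistribMulAction _

theorem actTn_smul_apply (r n : ℕ) (s : G) (t : Tn r (IsLocalRing.maximalIdeal O) n) (i : Fin r) :
    letI := actTn ρ r n
    (s • t) i = onesMapG ρ n s (t i) := rfl

theorem actTinf_smul_apply (r : ℕ) (s : G) (w : Tinf r (IsLocalRing.maximalIdeal O)) (i : Fin r) :
    letI := actTinf ρ r
    (s • w) i = onesMapO ρ s (w i) := rfl

/-- **The transition maps `pJ` are equivariant.** -/
theorem pJ_smul (D : CechData W B0 B1 B01 g) (n : ℕ) (s : G)
    (z : Jn D (IsLocalRing.maximalIdeal O) (n + 1)) :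
    letI := actJn ρ D (n + 1)
    letI := actJn ρ D n
    pJ D (IsLocalRing.maximalIdeal O) n (s • z) = s • pJ D (IsLocalRing.maximalIdeal O) n z :=
  transJhat_smul ρ D (fac W (IsLocalRing.maximalIdeal O) n) (fun _ => rfl)
    (fac_mQ W (IsLocalRing.maximalIdeal O) n) s z

/-- **The transition maps `pT` are equivariant.** -/
theorem pT_smul (r n : ℕ) (s : G) (t : Tn r (IsLocalRing.maximalIdeal O) (n + 1)) :
    letI := actTn ρ r (n + 1)
    letI := actTn ρ r n
    pT (W := W) r (IsLocalRing.maximalIdeal O) n (s • t) =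
      s • pT (W := W) r (IsLocalRing.maximalIdeal O) n t := by
  funext i
  exact transOnes_smul ρ (fac W (IsLocalRing.maximalIdeal O) n) (fun _ => rfl)
    (fac_mQ W (IsLocalRing.maximalIdeal O) n) s (t i)

/-- **`Package.q_smul`**: the reductions `qT` are equivariant. -/
theorem qT_smul (r n : ℕ) (s : G) (w : Tinf r (IsLocalRing.maximalIdeal O)) :
    letI := actTinf ρ r
    letI := actTn ρ r n
    qT (W := W) r (IsLocalRing.maximalIdeal O) n (s • w) =
      s • qT (W := W) r (IsLocalRing.maximalIdeal O) n w := by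
  funext i
  exact quotOnes_smul' ρ n _ (fun _ => rfl) (quo_mQ W (IsLocalRing.maximalIdeal O) n) s (w i)

/-- **The tower maps of a natural homomorphism `Ĵ_D → Ĵ_{D'}` are equivariant.** -/
theorem βn_smul {D : CechData W B0 B1 B01 g} {D' : CechData W B0' B1' B01' g'}
    (η : JhatNat D D') (n : ℕ) (s : G) (z : Jn D (IsLocalRing.maximalIdeal O) n) :
    letI := actJn ρ D n
    letI := actJn ρ D' n
    βn (IsLocalRing.maximalIdeal O) η n (s • z) = s • βn (IsLocalRing.maximalIdeal O) η n z :=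
  η.natural (truncRho ρ n s) (mQ_nilpotent (IsLocalRing.maximalIdeal O) n)
    (mQ_nilpotent (IsLocalRing.maximalIdeal O) n) (mT_le_comap_truncRho ρ n s) z

/-- **`Package.ι_smul`**: the tower maps of a natural toric homomorphism are equivariant. -/
theorem ιn_smul {D : CechData W B0 B1 B01 g} {r : ℕ} (ι : TorNat r D) (n : ℕ) (s : G)
    (t : Tn r (IsLocalRing.maximalIdeal O) n) :
    letI := actJn ρ D n
    letI := actTn ρ r n
    ιn (IsLocalRing.maximalIdeal O) ι n (s • t) = s • ιn (IsLocalRing.maximalIdeal O) ι n t :=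
  ι.natural (truncRho ρ n s) (mQ_nilpotent (IsLocalRing.maximalIdeal O) n)
    (mQ_nilpotent (IsLocalRing.maximalIdeal O) n) (mT_le_comap_truncRho ρ n s) t

/-- **`Package.χ_spec`**: `G` acts on the `p`-torsion of `Tinf` through `χ`. -/
theorem chi_spec_Tinf {p : ℕ} (χ : G → ℕ)
    (hχ : ∀ (s : G) (ζ : O), ζ ^ p = 1 → ρ s ζ = ζ ^ χ s) (r : ℕ) (s : G)
    (w : Tinf r (IsLocalRing.maximalIdeal O)) (hw : w ^ p = 1) :
    letI := actTinf ρ r
    s • w = w ^ χ s :=
  chi_spec ρ χ hχ s w hw

end Fermat.Agent.T1B.ToricGal65
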