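/-
T1B / TORIC50, brick T-GAL (helper65), file 6: **the remaining equivariance fields of
`Toric50.Assemble.TowerInput` / `Toric50.Package2`**, verbatim in the vocabulary of T-INST
(`Toric11/TowerU.lean`, `Toric11/NormSys.lean`, `Toric11/NormNat.lean`), for the Galois actions
`j1Act c0 ρ`, `actJn ρ D n`, `actTn ρ r n`, `actTinf ρ r` of `ρ : G →* (O ≃ₐ[W] O)`:

* `uJ_smul`       (= `TowerInput.u_smul`) : `uJ n (s • y) = s • uJ n y`;
* `normβn_smul`, `normβn_smul_eq_one`, `normβn2_smul_eq_one` (= `TowerInput.β_smul` for the Čech norms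
  `S.βn`, `βn2 Sα Sβ` of `Toric11.NormSys`).
(`q_smul = qT_smul`, `χ_spec = chi_spec_Tinf`, `ι_smul = ιn_smul` for natural `ι` are in `Inst.lean`.)
-/
import Mathlib
import Fermat.Agent.T1B.Toric11.TowerU
import Fermat.Agent.T1B.Toric11.NormNat
import Fermat.Agent.T1B.ToricGal65.Inst

set_option autoImplicit false
set_option linter.unusedSectionVars false
set_option linter.style.haveILetI false

open TensorProduct

namespace Fermat.Agent.T1B.ToricGal65

open Fermat.Agent.Jac Fermat.Agent.Jac.BaseChange75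
open Fermat.Agent.T1.RedIface75 Fermat.Agent.T1.CechFormal70
open Fermat.Agent.T1.Red20.CoordFun Fermat.Agent.T1.Red20.CoordMap Fermat.Agent.T1B.Toric11
open scoped Fermat.Agent.Jac.BaseChange75

universe u

section U

variable {W B0 B1 B01 : Type u} [CommRing W] [CommRing B0] [CommRing B1] [CommRing B01]
  [Algebra W B0] [Algebra W B1] [Algebra W B01] [Algebra B0 B01] [Algebra B1 B01]
  [IsScalarTower W B0 B01] [IsScalarTower W B1 B01]
  (c0 : TwoChart W B0 B1 B01) {g : ℕ} (D : CechData W B0 B1 B01 g)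
  (hρ0 : ∀ x, D.ρ0 x = algebraMap B0 B01 x) (hρ1 : ∀ x, D.ρ1 x = algebraMap B1 B01 x)

/-- The two versions of `Ĵ(R, m) → Pic X_R` (`Toric11.jhatToPic`, `CechFormal70.jhatToPic`) agree. -/
theorem jhatToPic_eq (R : Type u) [CommRing R] [Algebra W R] {m : Ideal R} (hm : IsNilpotent m)
    (z : (D.pkg R).Jhat m) :
    Fermat.Agent.T1B.Toric11.jhatToPic c0 D hρ0 hρ1 R hm z =
      Fermat.Agent.T1.CechFormal70.jhatToPic c0 D hρ0 hρ1 R m z := by
  obtain ⟨u, rfl⟩ := (D.pkg R).cls_surjective m z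
  rfl

variable (O : Type u) [CommRing O] [IsDomain O] [IsDiscreteValuationRing O] [Algebra W O]
  {G : Type u} [Group G] (ρ : G →* (O ≃ₐ[W] O))

/-- **`TowerInput.u_smul`**: the truncations `uJ n : J̃¹(O) →* Ĵ(O/𝔪ⁿ)` are `G`-equivariant. -/
theorem uJ_smul (n : ℕ) (s : G) (y : J1 c0 O) :
    letI := j1Act c0 ρ
    letI := actJn ρ D n
    uJ c0 D hρ0 hρ1 O n (s • y) = s • uJ c0 D hρ0 hρ1 O n y := by
  letI := j1Act c0 ρ
  letI := actJn ρ D n
  apply uJ_unique
  rw [jhatToPic_eq]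
  have h := jhatToPic_uJ c0 D hρ0 hρ1 O n y
  rw [jhatToPic_eq] at h
  exact coord_char_smul c0 ρ D hρ0 hρ1 n s h

end U

section Norm

variable {W B0 B1 B01 B0' B1' B01' : Type u} [CommRing W]
  [CommRing B0] [CommRing B1] [CommRing B01] [Algebra W B0] [Algebra W B1] [Algebra W B01]
  [CommRing B0'] [CommRing B1'] [CommRing B01'] [Algebra W B0'] [Algebra W B1'] [Algebra W B01']
  {g g' : ℕ} {D : CechData W B0 B1 B01 g} {D' : CechData W B0' B1' B01' g'}
  {O : Type u} [CommRing O] [IsDomain O] [IsDiscreteValuationRing O] [Algebra W O]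
  {G : Type u} [Group G] (ρ : G →* (O ≃ₐ[W] O))

/-- **The Čech norm `S.βn` is `G`-equivariant.** -/
theorem normβn_smul (S : NormSys D D') (n : ℕ) (s : G)
    (x : Jn D (IsLocalRing.maximalIdeal O) n) :
    letI := actJn ρ D n
    letI := actJn ρ D' n
    S.βn (IsLocalRing.maximalIdeal O) n (s • x) = s • S.βn (IsLocalRing.maximalIdeal O) n x :=
  S.βn_JhatMap (IsLocalRing.maximalIdeal O) (IsLocalRing.maximalIdeal O) n (truncRho ρ n s)
    (mT_le_comap_truncRho ρ n s) x

/-- **`TowerInput.β_smul`** for a single Čech norm. -/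
theorem normβn_smul_eq_one (S : NormSys D D') (n : ℕ) (s : G)
    (x : Jn D (IsLocalRing.maximalIdeal O) n)
    (hx : S.βn (IsLocalRing.maximalIdeal O) n x = 1) :
    letI := actJn ρ D n
    S.βn (IsLocalRing.maximalIdeal O) n (s • x) = 1 :=
  S.βn_JhatMap_eq_one (IsLocalRing.maximalIdeal O) (IsLocalRing.maximalIdeal O) n (truncRho ρ n s)
    (mT_le_comap_truncRho ρ n s) x hx

/-- **`TowerInput.β_smul`** for the pair of Čech norms `(N_α, N_β)`. -/
theorem normβn2_smul_eq_one (Sα Sβ : NormSys D D') (n : ℕ) (s : G)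
    (x : Jn D (IsLocalRing.maximalIdeal O) n)
    (hx : βn2 Sα Sβ (IsLocalRing.maximalIdeal O) n x = 1) :
    letI := actJn ρ D n
    βn2 Sα Sβ (IsLocalRing.maximalIdeal O) n (s • x) = 1 :=
  βn2_JhatMap_eq_one Sα Sβ (IsLocalRing.maximalIdeal O) (IsLocalRing.maximalIdeal O) n
    (truncRho ρ n s) (mT_le_comap_truncRho ρ n s) x hx

end Norm

end Fermat.Agent.T1B.ToricGal65
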