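/-
T1B / TORIC50, brick T-NAT (helper65), file 1: **naturality of the truncations `uJ`** in the DVR.

For DVRs `O`, `O'` over `W` and a local `W`-algebra homomorphism `f : O →ₐ[W] O'`:

* `map_trunc_mapAlg` : truncation commutes with base change,
  `PicX.map c0 O' (O'/𝔪'ⁿ) (mapAlg c0 f y) = mapAlg c0 (truncAlgHom f hf n) (PicX.map c0 O (O/𝔪ⁿ) y)`;
* `j1MapAlg c0 f hf : J1 c0 O →* J1 c0 O'`;
* `uJ_natural` : `uJ O' n (j1MapAlg c0 f hf y) = D.JhatMap (truncAlgHom f hf n) _ (uJ O n y)`.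
-/
import Mathlib
import Fermat.Agent.T1B.ToricGal65.InstU

set_option autoImplicit false
set_option linter.unusedSectionVars false
set_option linter.style.haveILetI false

open TensorProduct

namespace Fermat.Agent.T1B.ToricGal65

open Fermat.Agent.Jac Fermat.Agent.Jac.BaseChange75
open Fermat.Agent.T1.RedIface75 Fermat.Agent.T1.CechFormal70
open Fermat.Agent.T1.Red20.CoordFun Fermat.Agent.T1.Red20.CoordMap Fermat.Agent.T1B.Toric11
open scoped Fermat.Agent.Jac.BaseChange75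

universe u

variable {W B0 B1 B01 : Type u} [CommRing W] [CommRing B0] [CommRing B1] [CommRing B01]
  [Algebra W B0] [Algebra W B1] [Algebra W B01] [Algebra B0 B01] [Algebra B1 B01]
  [IsScalarTower W B0 B01] [IsScalarTower W B1 B01]
  (c0 : TwoChart W B0 B1 B01) {g : ℕ} (D : CechData W B0 B1 B01 g)
  (hρ0 : ∀ x, D.ρ0 x = algebraMap B0 B01 x) (hρ1 : ∀ x, D.ρ1 x = algebraMap B1 B01 x)
  {O O' : Type u} [CommRing O] [IsDomain O] [IsDiscreteValuationRing O] [Algebra W O]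
  [CommRing O'] [IsDomain O'] [IsDiscreteValuationRing O'] [Algebra W O']

/-- **Truncation commutes with base change** along a local `W`-algebra homomorphism. -/
theorem map_trunc_mapAlg (f : O →ₐ[W] O') (hf : IsLocalHom (f : O →+* O')) (n : ℕ)
    (y : PicX c0 O) :
    PicX.map c0 O' (Trunc O' n) (mapAlg c0 f y) =
      mapAlg c0 (truncAlgHom f hf n) (PicX.map c0 O (Trunc O n) y) := by
  rw [map_trunc_eq_mapAlg, map_trunc_eq_mapAlg, ← mapAlg_comp_apply, ← mapAlg_comp_apply]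
  exact congrFun (congrArg DFunLike.coe
    (mapAlg_congr c0 (truncAlgHom_comp_quotAlgHom f hf n).symm)) y

/-- The homomorphism `J̃¹(O) → J̃¹(O')` induced by a local `W`-algebra homomorphism. -/
noncomputable def j1MapAlg (f : O →ₐ[W] O') (hf : IsLocalHom (f : O →+* O')) :
    J1 c0 O →* J1 c0 O' :=
  ((mapAlg c0 f).comp (J1 c0 O).subtype).codRestrict _ fun y => mapAlg_mem_J1 c0 f hf y.2

@[simp] theorem coe_j1MapAlg (f : O →ₐ[W] O') (hf : IsLocalHom (f : O →+* O')) (y : J1 c0 O) :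
    ((j1MapAlg c0 f hf y : J1 c0 O') : PicX c0 O') = mapAlg c0 f (y : PicX c0 O) := rfl

/-- **Naturality of `uJ`** in the DVR. -/
theorem uJ_natural (f : O →ₐ[W] O') (hf : IsLocalHom (f : O →+* O')) (n : ℕ) (y : J1 c0 O) :
    uJ c0 D hρ0 hρ1 O' n (j1MapAlg c0 f hf y) =
      D.JhatMap (truncAlgHom f hf n) (mT_le_comap_truncAlgHom f hf n)
        (uJ c0 D hρ0 hρ1 O n y) := by
  apply uJ_unique
  rw [jhatToPic_eq, ← mapAlg_jhatToPic c0 D hρ0 hρ1 (truncAlgHom f hf n)
    (mT_le_comap_truncAlgHom f hf n), coe_j1MapAlg, map_trunc_mapAlg c0 f hf n]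
  congr 1
  rw [← jhatToPic_eq c0 D hρ0 hρ1 _ (mQ_nilpotent (IsLocalRing.maximalIdeal O) n)]
  exact jhatToPic_uJ c0 D hρ0 hρ1 O n y

/-- The action `j1Act` is `j1MapAlg` of the automorphisms. -/
theorem j1Act_smul_eq {G : Type u} [Group G] (ρ : G →* (O ≃ₐ[W] O)) (s : G) (y : J1 c0 O) :
    letI := j1Act c0 ρ
    s • y = j1MapAlg c0 (rhoHom ρ s) (rhoHom_local ρ s) y := rfl

end Fermat.Agent.T1B.ToricGal65
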