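/-
T1B / TORIC50, brick T-NAT (helper65), file 2: **natural families of toric maps and naturality of the
toric points**.

The toric maps `ι_O n : (1 + 𝔪/𝔪ⁿ)^r →* Ĵ(O/𝔪ⁿ)` exist only over the artinian truncations of DVRs `O`
over `W` (not over all `W`-algebras, so they are not a `Toric11.TorNat`).  `TorFam r D good` packages such
a family for all DVRs `O` over `W` in a class `good`, natural (O3) for all `W`-algebra maps
`φ : O/𝔪ⁿ → O'/𝔪'ⁿ'` mapping `𝔪/𝔪ⁿ` into `𝔪'/𝔪'ⁿ'`.  Consequences:

* `TorFam.ι_smul` (= `TowerInput.ι_smul`) : equivariance for the Galois actions `actTn`, `actJn`;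
* `TorFam.ι_pT`   (= `TowerInput.ι_pT`)   : compatibility with the transition maps;
* `tinfMap r f hf : Tinf r 𝔪 →* Tinf r 𝔪'`, `qT_tinfMap`;
* **`toricPoint_natural`** : for tower inputs `I` over `O`, `I'` over `O'` built on the family and a local
  `f : O →ₐ[W] O'`: `j1MapAlg c0 f hf (I.toricPoint w) = I'.toricPoint (tinfMap r f hf w)`.
-/
import Mathlib
import Fermat.Agent.T1B.Toric50.Assemble
import Fermat.Agent.T1B.ToricGal65.UJNat

set_option autoImplicit false
set_option linter.unusedSectionVars false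
set_option linter.style.haveILetI false

open TensorProduct

namespace Fermat.Agent.T1B.ToricGal65

open Fermat.Agent.Jac Fermat.Agent.Jac.BaseChange75
open Fermat.Agent.T1.RedIface75 Fermat.Agent.T1.CechFormal70
open Fermat.Agent.T1.Red20.CoordFun Fermat.Agent.T1.Red20.CoordMap Fermat.Agent.T1B.Toric11
open Fermat.Agent.T1B.Toric50.Assemble
open scoped Fermat.Agent.Jac.BaseChange75

universe u uG uG'

section Fam

variable {W B0 B1 B01 : Type u} [CommRing W] [CommRing B0] [CommRing B1] [CommRing B01]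
  [Algebra W B0] [Algebra W B1] [Algebra W B01] {g : ℕ}

/-- **A natural family of toric maps** on the towers of all DVRs over `W` in the class `good`. -/
structure TorFam (r : ℕ) (D : CechData W B0 B1 B01 g)
    (good : ∀ (O : Type u) [CommRing O] [IsDomain O] [IsDiscreteValuationRing O] [Algebra W O],
      Prop) : Type (u + 1) where
  /-- the toric maps -/
  ι : ∀ (O : Type u) [CommRing O] [IsDomain O] [IsDiscreteValuationRing O] [Algebra W O],
    good O → ∀ n : ℕ,
      Tn r (IsLocalRing.maximalIdeal O) n →* Jn D (IsLocalRing.maximalIdeal O) n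
  /-- naturality (O3) -/
  natural : ∀ (O O' : Type u) [CommRing O] [IsDomain O] [IsDiscreteValuationRing O] [Algebra W O]
    [CommRing O'] [IsDomain O'] [IsDiscreteValuationRing O'] [Algebra W O']
    (hO : good O) (hO' : good O') (n n' : ℕ)
    (φ : Tr (IsLocalRing.maximalIdeal O) n →ₐ[W] Tr (IsLocalRing.maximalIdeal O') n')
    (hφ : mQ (IsLocalRing.maximalIdeal O) n ≤ (mQ (IsLocalRing.maximalIdeal O') n').comap
      (φ : Tr (IsLocalRing.maximalIdeal O) n →+* Tr (IsLocalRing.maximalIdeal O') n'))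
    (z : Tn r (IsLocalRing.maximalIdeal O) n),
    D.JhatMap φ hφ (ι O hO n z) =
      ι O' hO' n' fun i => unitsOneMap
        (φ : Tr (IsLocalRing.maximalIdeal O) n →+* Tr (IsLocalRing.maximalIdeal O') n') hφ (z i)

variable {r : ℕ} {D : CechData W B0 B1 B01 g}
  {good : ∀ (O : Type u) [CommRing O] [IsDomain O] [IsDiscreteValuationRing O] [Algebra W O], Prop}
  (F : TorFam r D good)
  {O : Type u} [CommRing O] [IsDomain O] [IsDiscreteValuationRing O] [Algebra W O] (hO : good O)

/-- **`TowerInput.ι_smul`**: the toric maps of a natural family are `G`-equivariant. -/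
theorem TorFam.ι_smul {G : Type u} [Group G] (ρ : G →* (O ≃ₐ[W] O)) (n : ℕ) (s : G)
    (z : Tn r (IsLocalRing.maximalIdeal O) n) :
    letI := actJn ρ D n
    letI := actTn ρ r n
    F.ι O hO n (s • z) = s • F.ι O hO n z :=
  (F.natural O O hO hO n n (truncRho ρ n s) (mT_le_comap_truncRho ρ n s) z).symm

/-- **`TowerInput.ι_pT`**: the toric maps of a natural family commute with the transition maps. -/
theorem TorFam.ι_pT (n : ℕ) (z : Tn r (IsLocalRing.maximalIdeal O) (n + 1)) :
    F.ι O hO n (pT (W := W) r (IsLocalRing.maximalIdeal O) n z) =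
      pJ D (IsLocalRing.maximalIdeal O) n (F.ι O hO (n + 1) z) :=
  (F.natural O O hO hO (n + 1) n (fac W (IsLocalRing.maximalIdeal O) n)
    (fac_mQ W (IsLocalRing.maximalIdeal O) n) z).symm

end Fam

/-! ### The map on `(1 + 𝔪)^r` induced by a local homomorphism -/

section Tinf

variable {W : Type u} [CommRing W]
  {O O' : Type u} [CommRing O] [IsDomain O] [IsDiscreteValuationRing O] [Algebra W O]
  [CommRing O'] [IsDomain O'] [IsDiscreteValuationRing O'] [Algebra W O']

/-- The map `(1 + 𝔪)^r →* (1 + 𝔪')^r` induced by a local `W`-algebra homomorphism. -/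
noncomputable def tinfMap (r : ℕ) (f : O →ₐ[W] O') (hf : IsLocalHom (f : O →+* O')) :
    Tinf r (IsLocalRing.maximalIdeal O) →* Tinf r (IsLocalRing.maximalIdeal O') :=
  (unitsOneMap (f : O →+* O') (maximalIdeal_le_comap_algHom f hf)).compLeft (Fin r)

theorem tinfMap_apply (r : ℕ) (f : O →ₐ[W] O') (hf : IsLocalHom (f : O →+* O'))
    (w : Tinf r (IsLocalRing.maximalIdeal O)) (i : Fin r) :
    tinfMap r f hf w i = unitsOneMap (f : O →+* O') (maximalIdeal_le_comap_algHom f hf) (w i) :=
  rfl

/-- The reductions `qT` are natural in the DVR. -/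
theorem qT_tinfMap (r : ℕ) (f : O →ₐ[W] O') (hf : IsLocalHom (f : O →+* O')) (n : ℕ)
    (w : Tinf r (IsLocalRing.maximalIdeal O)) :
    qT (W := W) r (IsLocalRing.maximalIdeal O') n (tinfMap r f hf w) =
      fun i => unitsOneMap ((truncAlgHom f hf n : Trunc O n →ₐ[W] Trunc O' n) :
          Trunc O n →+* Trunc O' n) (mT_le_comap_truncAlgHom f hf n)
        (qT (W := W) r (IsLocalRing.maximalIdeal O) n w i) := by
  funext i
  exact Subtype.ext (Units.ext rfl)

/-- The action `actTinf` is `tinfMap` of the automorphisms. -/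
theorem actTinf_smul_eq {G : Type u} [Group G] (ρ : G →* (O ≃ₐ[W] O)) (r : ℕ) (s : G)
    (w : Tinf r (IsLocalRing.maximalIdeal O)) :
    letI := actTinf ρ r
    s • w = tinfMap r (rhoHom ρ s) (rhoHom_local ρ s) w := rfl

end Tinf

/-! ### Naturality of the toric points -/

section ToricPoint

variable {W B0 B1 B01 : Type u} [CommRing W] [CommRing B0] [CommRing B1] [CommRing B01]
  [Algebra W B0] [Algebra W B1] [Algebra W B01] [Algebra B0 B01] [Algebra B1 B01]
  [IsScalarTower W B0 B01] [IsScalarTower W B1 B01]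
  {c0 : TwoChart W B0 B1 B01} {g : ℕ} {D : CechData W B0 B1 B01 g}
  {hρ0 : ∀ x, D.ρ0 x = algebraMap B0 B01 x} {hρ1 : ∀ x, D.ρ1 x = algebraMap B1 B01 x}
  {O O' : Type u} [CommRing O] [IsDomain O] [IsDiscreteValuationRing O] [Algebra W O]
  [CommRing O'] [IsDomain O'] [IsDiscreteValuationRing O'] [Algebra W O']
  {r : ℕ}
  {good : ∀ (O : Type u) [CommRing O] [IsDomain O] [IsDiscreteValuationRing O] [Algebra W O], Prop}
  {G : Type uG} [Group G] {p : ℕ} {Bt : ℕ → Type u} [∀ n, CommGroup (Bt n)]
  [MulDistribMulAction G (J1 c0 O)]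
  [∀ n, MulDistribMulAction G (Jn D (IsLocalRing.maximalIdeal O) n)]
  [∀ n, MulDistribMulAction G (Tn r (IsLocalRing.maximalIdeal O) n)]
  [MulDistribMulAction G (Tinf r (IsLocalRing.maximalIdeal O))]
  {G' : Type uG'} [Group G'] {p' : ℕ} {Bt' : ℕ → Type u} [∀ n, CommGroup (Bt' n)]
  [MulDistribMulAction G' (J1 c0 O')]
  [∀ n, MulDistribMulAction G' (Jn D (IsLocalRing.maximalIdeal O') n)]
  [∀ n, MulDistribMulAction G' (Tn r (IsLocalRing.maximalIdeal O') n)]
  [MulDistribMulAction G' (Tinf r (IsLocalRing.maximalIdeal O'))]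

/-- **Naturality of the toric points**: for tower inputs `I` over `O` and `I'` over `O'` whose toric
maps come from one natural family, and a local `W`-algebra homomorphism `f : O → O'`, base change along
`f` maps the toric point of `w` to the toric point of `f(w)`. -/
theorem toricPoint_natural (I : TowerInput c0 D hρ0 hρ1 O G p r Bt)
    (I' : TowerInput c0 D hρ0 hρ1 O' G' p' r Bt') (F : TorFam r D good) (hO : good O)
    (hO' : good O') (hI : ∀ n, I.ι n = F.ι O hO n) (hI' : ∀ n, I'.ι n = F.ι O' hO' n)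
    (f : O →ₐ[W] O') (hf : IsLocalHom (f : O →+* O'))
    (w : Tinf r (IsLocalRing.maximalIdeal O)) :
    j1MapAlg c0 f hf (I.toricPoint w) = I'.toricPoint (tinfMap r f hf w) := by
  refine I'.toricPoint_unique _ _ fun n => ?_
  rw [uJ_natural, I.uJ_toricPoint, hI, hI',
    F.natural O O' hO hO' n n (truncAlgHom f hf n) (mT_le_comap_truncAlgHom f hf n),
    qT_tinfMap]

/-- The same on the level of `Pic X_{O'}`. -/
theorem coe_toricPoint_natural (I : TowerInput c0 D hρ0 hρ1 O G p r Bt)
    (I' : TowerInput c0 D hρ0 hρ1 O' G' p' r Bt') (F : TorFam r D good) (hO : good O)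
    (hO' : good O') (hI : ∀ n, I.ι n = F.ι O hO n) (hI' : ∀ n, I'.ι n = F.ι O' hO' n)
    (f : O →ₐ[W] O') (hf : IsLocalHom (f : O →+* O'))
    (w : Tinf r (IsLocalRing.maximalIdeal O)) :
    mapAlg c0 f ((I.toricPoint w : J1 c0 O) : PicX c0 O) =
      ((I'.toricPoint (tinfMap r f hf w) : J1 c0 O') : PicX c0 O') := by
  rw [← toricPoint_natural I I' F hO hO' hI hI' f hf w]
  rfl

end ToricPoint

end Fermat.Agent.T1B.ToricGal65
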