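/-
T1B / TORIC50, brick T-NAT (helper65), file 3: **naturality of the toric points for
`Toric50.ToricFamily`** (helper50's family of toric towers over the DVRs `O` over `W` with `π ∈ 𝔪_O`):
the specialisation of `ToricNat.toricPoint_natural` to `good O := algebraMap W O π ∈ maximalIdeal O`.

* `ToricFamily.toTorFam`;
* `toricPoint_natural_family`, `coe_toricPoint_natural_family`.
-/
import Mathlib
import Fermat.Agent.T1B.Toric50.Family
import Fermat.Agent.T1B.ToricGal65.ToricNat

set_option autoImplicit false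
set_option linter.unusedSectionVars false
set_option linter.style.haveILetI false

open TensorProduct

namespace Fermat.Agent.T1B.ToricGal65

open Fermat.Agent.Jac Fermat.Agent.Jac.BaseChange75
open Fermat.Agent.T1.RedIface75 Fermat.Agent.T1.CechFormal70
open Fermat.Agent.T1.Red20.CoordFun Fermat.Agent.T1.Red20.CoordMap Fermat.Agent.T1B.Toric11
open Fermat.Agent.T1B.Toric50 Fermat.Agent.T1B.Toric50.Assemble
open scoped Fermat.Agent.Jac.BaseChange75

universe u uG uG'

/-- A `Toric50.ToricFamily` as a `TorFam` for the class of DVRs with `π ∈ 𝔪`. -/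
def _root_.Fermat.Agent.T1B.Toric50.ToricFamily.toTorFam {W B0 B1 B01 : Type u} [CommRing W]
    [CommRing B0] [CommRing B1] [CommRing B01] [Algebra W B0] [Algebra W B1] [Algebra W B01]
    {g : ℕ} {π : W} {D : CechData W B0 B1 B01 g} {r : ℕ} (F : ToricFamily π D r) :
    TorFam r D (fun O _ _ _ _ => algebraMap W O π ∈ IsLocalRing.maximalIdeal O) where
  ι := F.ι
  natural := F.natural

variable {W B0 B1 B01 : Type u} [CommRing W] [CommRing B0] [CommRing B1] [CommRing B01]
  [Algebra W B0] [Algebra W B1] [Algebra W B01] [Algebra B0 B01] [Algebra B1 B01]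
  [IsScalarTower W B0 B01] [IsScalarTower W B1 B01]
  {c0 : TwoChart W B0 B1 B01} {g : ℕ} {D : CechData W B0 B1 B01 g}
  {hρ0 : ∀ x, D.ρ0 x = algebraMap B0 B01 x} {hρ1 : ∀ x, D.ρ1 x = algebraMap B1 B01 x}
  {O O' : Type u} [CommRing O] [IsDomain O] [IsDiscreteValuationRing O] [Algebra W O]
  [CommRing O'] [IsDomain O'] [IsDiscreteValuationRing O'] [Algebra W O']
  {r : ℕ} {π : W}
  {G : Type uG} [Group G] {p : ℕ} {Bt : ℕ → Type u} [∀ n, CommGroup (Bt n)]
  [MulDistribMulAction G (J1 c0 O)]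
  [∀ n, MulDistribMulAction G (Jn D (IsLocalRing.maximalIdeal O) n)]
  [∀ n, MulDistribMulAction G (Tn r (IsLocalRing.maximalIdeal O) n)]
  [MulDistribMulAction G (Tinf r (IsLocalRing.maximalIdeal O))]
  {G' : Type uG'} [Group G'] {p' : ℕ} {Bt' : ℕ → Type u} [∀ n, CommGroup (Bt' n)]
  [MulDistribMulAction G' (J1 c0 O')]
  [∀ n, MulDistribMulAction G' (Jn D (IsLocalRing.maximalIdeal O') n)]
  [∀ n, MulDistribMulAction G' (Tn r (IsLocalRing.maximalIdeal O') n)]
  [MulDistribMulAction G' (Tinf r (IsLocalRing.maximalIdeal O'))]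

/-- **Naturality of the toric points** for tower inputs built on a `Toric50.ToricFamily`. -/
theorem toricPoint_natural_family (I : TowerInput c0 D hρ0 hρ1 O G p r Bt)
    (I' : TowerInput c0 D hρ0 hρ1 O' G' p' r Bt') (F : ToricFamily π D r)
    (hO : algebraMap W O π ∈ IsLocalRing.maximalIdeal O)
    (hO' : algebraMap W O' π ∈ IsLocalRing.maximalIdeal O')
    (hI : ∀ n, I.ι n = F.ι O hO n) (hI' : ∀ n, I'.ι n = F.ι O' hO' n)
    (f : O →ₐ[W] O') (hf : IsLocalHom (f : O →+* O'))
    (w : Tinf r (IsLocalRing.maximalIdeal O)) :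
    j1MapAlg c0 f hf (I.toricPoint w) = I'.toricPoint (tinfMap r f hf w) :=
  toricPoint_natural I I' F.toTorFam hO hO' hI hI' f hf w

/-- The same on the level of `Pic X_{O'}`. -/
theorem coe_toricPoint_natural_family (I : TowerInput c0 D hρ0 hρ1 O G p r Bt)
    (I' : TowerInput c0 D hρ0 hρ1 O' G' p' r Bt') (F : ToricFamily π D r)
    (hO : algebraMap W O π ∈ IsLocalRing.maximalIdeal O)
    (hO' : algebraMap W O' π ∈ IsLocalRing.maximalIdeal O')
    (hI : ∀ n, I.ι n = F.ι O hO n) (hI' : ∀ n, I'.ι n = F.ι O' hO' n)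
    (f : O →ₐ[W] O') (hf : IsLocalHom (f : O →+* O'))
    (w : Tinf r (IsLocalRing.maximalIdeal O)) :
    mapAlg c0 f ((I.toricPoint w : J1 c0 O) : PicX c0 O) =
      ((I'.toricPoint (tinfMap r f hf w) : J1 c0 O') : PicX c0 O') :=
  coe_toricPoint_natural I I' F.toTorFam hO hO' hI hI' f hf w

end Fermat.Agent.T1B.ToricGal65
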